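/-
S55 / FORMAL-F1 (helper175) : SKELETON of the instantiation of `Formal/F1Abs.lean`.
Sections = tasks.  The proved versions live in `Fermat/Agent/S55/Formal/F1/<Section>.lean`
(same namespace, same names, same statements).  Definitions: `Formal/F1/Defs.lean`.
-/
import Fermat.Agent.S55.Formal.F1.Defs
import Fermat.Agent.S55.Formal.F1Abs
import Fermat.Agent.S55.Coh.LESExact
import Fermat.Agent.S55.Coh.SetDefs

set_option autoImplicit false

namespace Fermat.Agent.S55.F1

/-! ## Section HomFun : file `Formal/F1/HomFun.lean` -/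
section HomFun

variable {G : Type} [Group G]
variable {A : Type} [AddCommGroup A] [DistribMulAction G A]
variable {B : Type} [AddCommGroup B] [DistribMulAction G B]
variable {C : Type} [AddCommGroup C] [DistribMulAction G C]
variable {T : Type} [AddCommGroup T] [DistribMulAction G T]

theorem finite_homMod [Finite A] [Finite T] : Finite (HomMod A T) := sorry

theorem smooth_homMod (𝓝 : LevelSys G) [Finite A] [Smooth 𝓝 A] [Smooth 𝓝 T] :
    Smooth 𝓝 (HomMod A T) := sorry

/-- `Hom(-, T)` is exact on groups killed by a prime `p`. -/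
theorem shortExact_pre (p : ℕ) [Fact p.Prime] {φ : A →+[G] B} {ψ : B →+[G] C}
    (h : ShortExact φ ψ) (hB : ∀ b : B, p • b = 0) :
    ShortExact (pre T ψ) (pre T φ) := sorry

theorem isCoef_homMod {S : Finset Nat.Primes} {p : ℕ} {N : Type} [AddCommGroup N]
    [DistribMulAction GQ N] (hN : IsCoef S p N) (hμ : IsCoef S p (Mu p)) :
    IsCoef S p (HomMod N (Mu p)) := sorry

end HomFun

/-! ## Section ResNat : file `Formal/F1/ResNat.lean` -/
section ResNat

variable {G H : Type} [Group G] [Group H] (f : H →* G)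
variable {𝓝H : LevelSys H} {𝓝G : LevelSys G} (hle : (𝓝G.comap f).Le 𝓝H)
variable {A : Type} [AddCommGroup A] [DistribMulAction G A]
variable {B : Type} [AddCommGroup B] [DistribMulAction G B]
variable {C : Type} [AddCommGroup C] [DistribMulAction G C]

theorem res_map (φ : A →+[G] B) (n : ℕ) (x : Hsm 𝓝G A n) :
    Hsm.res B f 𝓝H 𝓝G hle n (Hsm.map φ n x) =
      Hsm.map (ResMod.map f φ) n (Hsm.res A f 𝓝H 𝓝G hle n x) := sorry

theorem shortExact_res {φ : A →+[G] B} {ψ : B →+[G] C} (h : ShortExact φ ψ) :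
    ShortExact (ResMod.map f φ) (ResMod.map f ψ) := sorry

theorem res_delta [Smooth 𝓝G B] [Smooth 𝓝H (ResMod f B)] {φ : A →+[G] B} {ψ : B →+[G] C}
    (h : ShortExact φ ψ) (n : ℕ) (x : Hsm 𝓝G C n) :
    Hsm.res A f 𝓝H 𝓝G hle (n + 1) (Hsm.delta h n x) =
      Hsm.delta (shortExact_res f h) n (Hsm.res C f 𝓝H 𝓝G hle n x) := sorry

theorem res_zero_injective : Function.Injective (Hsm.res A f 𝓝H 𝓝G hle 0) := sorry

end ResNat

/-! ## Section Pair : file `Formal/F1/Pair.lean` -/
section Pair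

variable {S : Finset Nat.Primes} {p : ℕ} (q : Nat.Primes)
variable (N : Type) [AddCommGroup N] [DistribMulAction GQ N]
variable {N' : Type} [AddCommGroup N'] [DistribMulAction GQ N']

theorem eq_zero_of_YtoHom (y : Hloc q (HomMod N (Mu p)) 0) (h : ∀ n, YtoHom q N y n = 0) :
    y = 0 := sorry

theorem YtoHom_surjective : Function.Surjective (YtoHom (p := p) q N) := sorry

theorem ZtoHom_surjective : Function.Surjective (ZtoHom (S := S) (p := p) N) := sorry

theorem YtoHom_locS (z : Hsm (lvlS S) (HomMod N (Mu p)) 0) (n : ResMod (ιv q) N) :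
    YtoHom q N (locS S (HomMod N (Mu p)) q 0 z) n = ResMod.map (ιv q) (ZtoHom N z) n := sorry

variable {N} in
theorem YtoHom_pre (φ : N →+[GQ] N') (y : Hloc q (HomMod N' (Mu p)) 0) (n : ResMod (ιv q) N) :
    YtoHom q N (Hsm.map (ResMod.map (ιv q) (pre (Mu p) φ)) 0 y) n =
      YtoHom q N' y (ResMod.map (ιv q) φ n) := sorry

variable {N} in
theorem Bq_adj (t : Hloc q (Mu p) 2 →+ ZMod p) (φ : N →+[GQ] N') (x : Hloc q N 2)
    (y : Hloc q (HomMod N' (Mu p)) 0) :
    Bq q N' t (Hsm.map (ResMod.map (ιv q) φ) 2 x) y =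
      Bq q N t x (Hsm.map (ResMod.map (ιv q) (pre (Mu p) φ)) 0 y) := sorry

end Pair

/-! ## Section Coef : file `Formal/F1/Coef.lean` -/
section Coef

variable {S : Finset Nat.Primes} {p : ℕ}
variable {N : Type} [AddCommGroup N] [DistribMulAction GQ N]

theorem isCoef_indMod (hN : IsCoef S p N) {U : Subgroup GQ} (hU : U ∈ (lvlS S).carrier) :
    IsCoef S p (IndMod (GQ ⧸ U) N) := sorry

theorem isCoef_sub (hN : IsCoef S p N) (B : GSub GQ N) : IsCoef S p B.Mod := sorry

theorem smooth_loc (hN : IsCoef S p N) (q : Nat.Primes) :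
    Smooth (lvlLoc q) (ResMod (ιv q) N) := sorry

theorem sum_surjective (U : Subgroup GQ) [Finite (GQ ⧸ U)] :
    Function.Surjective (IndMod.sum (G := GQ) (GQ ⧸ U) N) := sorry

theorem finite_Hloc_zero (hN : IsCoef S p N) (q : Nat.Primes) : Finite (Hloc q N 0) := sorry

end Coef

/-! ## Section Efface : file `Formal/F1/Efface.lean` -/
section Efface

variable {G : Type} [Group G] (𝓝 : LevelSys G)
variable {M : Type} [AddCommGroup M] [DistribMulAction G M]
variable {T : Type} [AddCommGroup T] [DistribMulAction G T]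

/-- the fibre sum followed by the total sum is the total sum -/
theorem sum_push {U' U : Subgroup G} (h : U' ≤ U) [Finite (G ⧸ U')] [Finite (G ⧸ U)]
    (f : IndMod (G ⧸ U') M) :
    IndMod.sum (G := G) (G ⧸ U) M (IndMod.push M (cosetMap h) f) =
      IndMod.sum (G := G) (G ⧸ U') M f := sorry

/-- the kernels of `H^n(Hom(M,T)) → H^n(Hom(M_U,T))` increase when `U` shrinks -/
theorem ker_pre_sum_mono {U' U : Subgroup G} (h : U' ≤ U) [Finite (G ⧸ U')] [Finite (G ⧸ U)]
    (n : ℕ) (x : Hsm 𝓝 (HomMod M T) n)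
    (hx : Hsm.map (pre T (IndMod.sum (G ⧸ U) M)) n x = 0) :
    Hsm.map (pre T (IndMod.sum (G ⧸ U') M)) n x = 0 := sorry

/-- every class of `H^1(Hom(M,T))` dies in `H^1(Hom(M_U,T))` for some level `U` -/
theorem exists_pre_sum_eq_zero (x : Hsm 𝓝 (HomMod M T) 1) :
    ∃ U ∈ 𝓝.carrier, ∃ _ : Finite (G ⧸ U), Hsm.map (pre T (IndMod.sum (G ⧸ U) M)) 1 x = 0 := sorry

end Efface

end Fermat.Agent.S55.F1
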