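/-
S55 / FORMAL-F1 (helper175) : instantiation of `Formal/F1Abs.lean` = THEOREM F1.
-/
import Fermat.Agent.S55.Formal.F1.WIP.Skeleton

set_option autoImplicit false

namespace Fermat.Agent.S55.F1

open Fermat.Agent.S55.Formal

variable (S : Finset Nat.Primes) {p : ℕ}

section prod

variable {A : Type} [AddCommGroup A] [DistribMulAction GQ A]
variable {B : Type} [AddCommGroup B] [DistribMulAction GQ B]
variable {C : Type} [AddCommGroup C] [DistribMulAction GQ C]

/-- The total localisation map. -/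
noncomputable def locP (A : Type) [AddCommGroup A] [DistribMulAction GQ A] (n : ℕ) :
    Hsm (lvlS S) A n →+ ∀ q : ↥S, Hloc q.1 A n :=
  AddMonoidHom.pi fun q => locS S A q.1 n

@[simp] theorem locP_apply (n : ℕ) (x : Hsm (lvlS S) A n) (q : ↥S) :
    locP S A n x q = locS S A q.1 n x := rfl

theorem ker_locP (n : ℕ) : (locP S A n).ker = Sha S A n := by
  ext x
  rw [AddMonoidHom.mem_ker, mem_Sha_iff]
  exact funext_iff

/-- Functoriality of the product of the local groups. -/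
noncomputable def mapP (φ : A →+[GQ] B) (n : ℕ) :
    (∀ q : ↥S, Hloc q.1 A n) →+ ∀ q : ↥S, Hloc q.1 B n :=
  AddMonoidHom.pi fun q =>
    (Hsm.map (ResMod.map (ιv q.1) φ) n).comp (Pi.evalAddMonoidHom _ q)

@[simp] theorem mapP_apply (φ : A →+[GQ] B) (n : ℕ) (y : ∀ q : ↥S, Hloc q.1 A n) (q : ↥S) :
    mapP S φ n y q = Hsm.map (ResMod.map (ιv q.1) φ) n (y q) := rfl

/-- The product of the local connecting maps. -/
noncomputable def deltaP {φ : A →+[GQ] B} {ψ : B →+[GQ] C} (h : ShortExact φ ψ)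
    (hsm : ∀ q : ↥S, Smooth (lvlLoc q.1) (ResMod (ιv q.1) B)) (n : ℕ) :
    (∀ q : ↥S, Hloc q.1 C n) →+ ∀ q : ↥S, Hloc q.1 A (n + 1) :=
  AddMonoidHom.pi fun q =>
    (haveI := hsm q; Hsm.delta (shortExact_res (ιv q.1) h) n).comp (Pi.evalAddMonoidHom _ q)

theorem deltaP_apply {φ : A →+[GQ] B} {ψ : B →+[GQ] C} (h : ShortExact φ ψ)
    (hsm : ∀ q : ↥S, Smooth (lvlLoc q.1) (ResMod (ιv q.1) B)) (n : ℕ)
    (y : ∀ q : ↥S, Hloc q.1 C n) (q : ↥S) :
    deltaP S h hsm n y q = (haveI := hsm q; Hsm.delta (shortExact_res (ιv q.1) h) n (y q)) := rfl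

theorem locP_map (φ : A →+[GQ] B) (n : ℕ) (x : Hsm (lvlS S) A n) :
    locP S B n (Hsm.map φ n x) = mapP S φ n (locP S A n x) :=
  funext fun q => res_map (ιv q.1) (lvlS_comap_le_lvlLoc S q.1) φ n x

end prod

variable {S} [Fact p.Prime]

/-- THEOREM F1 at a fixed good level `U`. -/
theorem card_at_level (hS : S.Nonempty) (C : Contract S p) (M : Type) [AddCommGroup M]
    [DistribMulAction GQ M] (hM : IsCoef S p M) (U : Subgroup GQ) (hU : U ∈ (lvlS S).carrier)
    [Finite (GQ ⧸ U)]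
    (hkill : ∀ x ∈ Sha S (IndMod (GQ ⧸ U) M) 2, Hsm.map (IndMod.sum (GQ ⧸ U) M) 2 x = 0) :
    Finite (Sha S M 2) ∧ Nat.card (Sha S M 2) =
      Nat.card ↥((Hsm.map (𝓝 := lvlS S) (pre (Mu p) (IndMod.sum (GQ ⧸ U) M)) 1).ker ⊓
        Sha S (HomMod M (Mu p)) 1) := by
  classical
  set π : IndMod (GQ ⧸ U) M →+[GQ] M := IndMod.sum (GQ ⧸ U) M with hπ
  set K : GSub GQ (IndMod (GQ ⧸ U) M) := GSub.ker π with hK
  have hF : IsCoef S p (IndMod (GQ ⧸ U) M) := isCoef_indMod hM hU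
  have hQ : IsCoef S p K.Mod := isCoef_sub hF K
  have hF' : IsCoef S p (HomMod (IndMod (GQ ⧸ U) M) (Mu p)) := isCoef_homMod hF C.coefMu
  have hQ' : IsCoef S p (HomMod K.Mod (Mu p)) := isCoef_homMod hQ C.coefMu
  have hses : ShortExact K.inclG π :=
    ⟨K.inclG_injective, fun b => ⟨fun hb => ⟨K.mkMod b hb, rfl⟩, by
      rintro ⟨a, rfl⟩
      exact K.incl_mem a⟩, sum_surjective U⟩
  have hses' : ShortExact (pre (Mu p) π) (pre (Mu p) K.inclG) := shortExact_pre p hses hF.ptors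
  have := hF.smooth
  have := hF'.smooth
  have hsmF' : ∀ q : ↥S, Smooth (lvlLoc q.1) (ResMod (ιv q.1) (HomMod (IndMod (GQ ⧸ U) M) (Mu p))) :=
    fun q => smooth_loc hF' q.1
  -- finiteness
  have finY : ∀ (N : Type) [AddCommGroup N] [DistribMulAction GQ N], IsCoef S p N →
      Finite (∀ q : ↥S, Hloc q.1 (HomMod N (Mu p)) 0) := by
    intro N _ _ hN
    have : ∀ q : ↥S, Finite (Hloc q.1 (HomMod N (Mu p)) 0) := fun q =>
      finite_Hloc_zero (isCoef_homMod hN C.coefMu) q.1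
    infer_instance
  have finP : ∀ (N : Type) [AddCommGroup N] [DistribMulAction GQ N], IsCoef S p N →
      Finite (∀ q : ↥S, Hloc q.1 N 2) := by
    intro N _ _ hN
    have : ∀ q : ↥S, Finite (Hloc q.1 N 2) := fun q => by
      have := finite_Hloc_zero (isCoef_homMod hN C.coefMu) q.1
      refine Finite.of_injective (fun x y => Bq q.1 N (C.t q.1) x y) fun x x' hxx' => ?_
      rw [← sub_eq_zero]
      refine C.LD₁ N hN q.1 q.2 _ fun f => ?_
      obtain ⟨y, rfl⟩ := YtoHom_surjective q.1 N f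
      rw [← Bq_apply, map_sub, AddMonoidHom.sub_apply, sub_eq_zero]
      exact congrFun hxx' y
    infer_instance
  have := finY _ hF
  have := finY _ hQ
  have := finP _ hF
  have := finP _ hQ
  -- the pairings
  have left : ∀ (N : Type) [AddCommGroup N] [DistribMulAction GQ N], IsCoef S p N →
      ∀ y, (∀ f, piPairing (fun q : ↥S => Bq q.1 N (C.t q.1)) y f = 0) → y = 0 := by
    intro N _ _ hN
    refine piPairing_left _ fun q y h => C.LD₁ N hN q.1 q.2 y fun f => ?_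
    obtain ⟨y', rfl⟩ := YtoHom_surjective q.1 N f
    exact h y'
  have right : ∀ (N : Type) [AddCommGroup N] [DistribMulAction GQ N], IsCoef S p N →
      ∀ f, (∀ y, piPairing (fun q : ↥S => Bq q.1 N (C.t q.1)) y f = 0) → f = 0 := by
    intro N _ _ hN
    refine piPairing_right _ fun q f h => eq_zero_of_YtoHom q.1 N f ?_
    exact C.LD₂ N hN q.1 q.2 _ fun x => h x
  have adj : ∀ (N N' : Type) [AddCommGroup N] [DistribMulAction GQ N] [AddCommGroup N']
      [DistribMulAction GQ N'] (φ : N →+[GQ] N') (y) (f),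
      piPairing (fun q : ↥S => Bq q.1 N' (C.t q.1)) (mapP S φ 2 y) f =
        piPairing (fun q : ↥S => Bq q.1 N (C.t q.1)) y (mapP S (pre (Mu p) φ) 0 f) := by
    intro N N' _ _ _ _ φ y f
    rw [piPairing_apply, piPairing_apply]
    exact Finset.sum_congr rfl fun q _ => Bq_adj q.1 (C.t q.1) φ (y q) (f q)
  have PT : ∀ (N : Type) [AddCommGroup N] [DistribMulAction GQ N], IsCoef S p N →
      ∀ y, (∃ x, locP S N 2 x = y) ↔
        ∀ z, piPairing (fun q : ↥S => Bq q.1 N (C.t q.1)) y (locP S (HomMod N (Mu p)) 0 z) = 0 := by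
    intro N _ _ hN y
    have key : ∀ z, piPairing (fun q : ↥S => Bq q.1 N (C.t q.1)) y (locP S (HomMod N (Mu p)) 0 z) =
        ∑ q : ↥S, C.t q.1 (Hsm.map (ResMod.map (ιv q.1) (ZtoHom N z)) 2 (y q)) := by
      intro z
      rw [piPairing_apply]
      refine Finset.sum_congr rfl fun q _ => ?_
      rw [Bq_apply, locP_apply, Hsm.map_congr (YtoHom_locS q.1 N z)]
    constructor
    · rintro ⟨x, rfl⟩ z
      rw [key]
      exact C.PT₀ N hN x _
    · intro h
      obtain ⟨x, hx⟩ := C.PT₁ N hN y fun f => by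
        obtain ⟨z, rfl⟩ := ZtoHom_surjective (S := S) N f
        rw [← key]
        exact h z
      exact ⟨x, funext hx⟩
  obtain ⟨q0, hq0⟩ := hS
  have := card_sha2_eq_card_sha1 (p := p)
    (jH := Hsm.map (𝓝 := lvlS S) K.inclG 2) (πH := Hsm.map (𝓝 := lvlS S) π 2)
    (jP := mapP S K.inclG 2) (πP := mapP S π 2)
    (locQ := locP S K.Mod 2) (locF := locP S (IndMod (GQ ⧸ U) M) 2) (locM := locP S M 2)
    (loc_j := locP_map S K.inclG 2) (loc_π := locP_map S π 2)
    (πH_jH := Hsm.map_map_eq_zero hses 2)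
    (exact_H2F := fun x hx => (Hsm.exact_map_map hses 2 x).1 hx)
    (surj_πH := C.RE _ _ hF hM π hses.surj)
    (sha_kill := fun x hx => hkill x (by rw [← ker_locP]; exact hx))
    (jZ := Hsm.map (𝓝 := lvlS S) (pre (Mu p) K.inclG) 0)
    (jY := mapP S (pre (Mu p) K.inclG) 0) (πY := mapP S (pre (Mu p) π) 0)
    (ιQ := locP S (HomMod K.Mod (Mu p)) 0) (ιF := locP S (HomMod (IndMod (GQ ⧸ U) M) (Mu p)) 0)
    (ι_j := locP_map S (pre (Mu p) K.inclG) 0)
    (ιQ_inj := fun a b hab => res_zero_injective (ιv q0) (lvlS_comap_le_lvlLoc S q0)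
      (congrFun hab ⟨q0, hq0⟩))
    (jY_πY := fun g => funext fun q => Hsm.map_map_eq_zero (shortExact_res (ιv q.1) hses') 0 (g q))
    (exact_YF := fun f hf => by
      have : ∀ q : ↥S, ∃ g, Hsm.map (ResMod.map (ιv q.1) (pre (Mu p) π)) 0 g = f q := fun q =>
        have := hsmF' q
        (Hsm.exact_map_map (shortExact_res (ιv q.1) hses') 0 (f q)).1 (congrFun hf q)
      choose g hg using this
      exact ⟨g, funext hg⟩)
    (BQ := piPairing fun q : ↥S => Bq q.1 K.Mod (C.t q.1))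
    (BF := piPairing fun q : ↥S => Bq q.1 (IndMod (GQ ⧸ U) M) (C.t q.1))
    (BM := piPairing fun q : ↥S => Bq q.1 M (C.t q.1))
    (BQ_left := left _ hQ) (BQ_right := right _ hQ) (BF_left := left _ hF)
    (BF_right := right _ hF) (BM_left := left _ hM)
    (adj_j := adj _ _ K.inclG) (adj_π := adj _ _ π)
    (PT_Q := PT _ hQ) (PT_F := PT _ hF)
    (δ := Hsm.delta hses' 0) (δloc := deltaP S hses' hsmF' 0)
    (res := Hsm.map (𝓝 := lvlS S) (pre (Mu p) π) 1) (loc1 := locP S (HomMod M (Mu p)) 1)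
    (ker_δ := fun z => Hsm.exact_map_delta hses' 0 z)
    (range_δ := fun x => Hsm.exact_delta_map hses' 0 x)
    (ker_δloc := fun f => by
      constructor
      · intro hf
        have : ∀ q : ↥S, ∃ g, Hsm.map (ResMod.map (ιv q.1) (pre (Mu p) K.inclG)) 0 g = f q :=
          fun q =>
          have := hsmF' q
          (Hsm.exact_map_delta (shortExact_res (ιv q.1) hses') 0 (f q)).1 (congrFun hf q)
        choose g hg using this
        exact ⟨g, funext hg⟩
      · rintro ⟨g, rfl⟩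
        funext q
        have := hsmF' q
        exact Hsm.delta_map_eq_zero (shortExact_res (ιv q.1) hses') 0 (g q))
    (loc_δ := fun z => funext fun q =>
      have := hsmF' q
      res_delta (ιv q.1) (lvlS_comap_le_lvlLoc S q.1) hses' 0 z)
  rw [ker_locP, ker_locP] at this
  exact this

/-- THEOREM F1. -/
theorem main (hS : S.Nonempty) (C : Contract S p) (M : Type) [AddCommGroup M]
    [DistribMulAction GQ M] (hM : IsCoef S p M) :
    Finite (Sha S M 2) ∧ Nat.card (Sha S M 2) = Nat.card (Sha S (HomMod M (Mu p)) 1) := by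
  classical
  have fin : ∀ U ∈ (lvlS S).carrier, Finite (GQ ⧸ U) := fun U hU =>
    Subgroup.finiteIndex_iff_finite_quotient.1 ((lvlS S).finiteIndex U hU)
  -- the good levels
  let I : Type := {U : Subgroup GQ // U ∈ (lvlS S).carrier ∧ ∃ _ : Finite (GQ ⧸ U),
    ∀ x ∈ Sha S (IndMod (GQ ⧸ U) M) 2, Hsm.map (IndMod.sum (GQ ⧸ U) M) 2 x = 0}
  have good : ∀ U ∈ (lvlS S).carrier, ∃ i : I, i.1 ≤ U := fun U hU => by
    obtain ⟨U', hU', hle, h⟩ := C.C4 M hM U hU
    exact ⟨⟨U', hU', h⟩, hle⟩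
  let XL : I → AddSubgroup (Hsm (lvlS S) (HomMod M (Mu p)) 1) := fun i =>
    have := fin i.1 i.2.1
    (Hsm.map (𝓝 := lvlS S) (pre (Mu p) (IndMod.sum (GQ ⧸ i.1) M)) 1).ker ⊓
      Sha S (HomMod M (Mu p)) 1
  have lev : ∀ i : I, Finite (Sha S M 2) ∧ Nat.card (Sha S M 2) = Nat.card (XL i) := fun i => by
    obtain ⟨hf, hk⟩ := i.2.2
    exact card_at_level hS C M hM i.1 i.2.1 hk
  have mono : ∀ i j : I, j.1 ≤ i.1 → XL i ≤ XL j := fun i j hij x hx => by
    have := fin i.1 i.2.1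
    have := fin j.1 j.2.1
    exact ⟨ker_pre_sum_mono (lvlS S) hij 1 x hx.1, hx.2⟩
  obtain ⟨U0, hU0⟩ := (lvlS S).nonempty
  obtain ⟨i0, -⟩ := good U0 hU0
  have hfin : Finite (Sha S M 2) := (lev i0).1
  have : Nonempty I := ⟨i0⟩
  have key := card_eq_of_exhaustion (Sha S (HomMod M (Mu p)) 1) XL (Nat.card (Sha S M 2))
    Nat.card_pos.ne'
    (fun i j => by
      obtain ⟨V, hV, hle⟩ := (lvlS S).directed i.1 i.2.1 j.1 j.2.1
      obtain ⟨k, hk⟩ := good V hV
      exact ⟨k, mono i k (hk.trans (hle.trans inf_le_left)),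
        mono j k (hk.trans (hle.trans inf_le_right))⟩)
    (fun i => (lev i).2.symm)
    (fun i => inf_le_right)
    (fun x hx => by
      obtain ⟨U, hU, hf, hx0⟩ := exists_pre_sum_eq_zero (lvlS S) x
      obtain ⟨k, hk⟩ := good U hU
      have := fin k.1 k.2.1
      exact ⟨k, ker_pre_sum_mono (lvlS S) hk 1 x hx0, hx⟩)
  exact ⟨hfin, key.2.symm⟩

end Fermat.Agent.S55.F1
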